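/-
S25, block ALGCHARTS, leaf DEG3 (helper190): `exists_P0`, EXACT statement of helper11's skeleton
(`coord/S25-ALGCHARTS-skeleton.lean`), plus the dictionary between helper11's `tcech`/`sec`
(`H11/ACDefs.lean`) and helper10's twists `twistE` (`H10/DegreeDefs.lean`) and the operator-style
differentials `(chartCechOps hC G).d n` (`H250`).
-/
import Fermat.Agent.S25.H11.ACDefs
import Fermat.Agent.S25.H250.AdapterTwist

set_option autoImplicit false

universe u

open scoped TensorProduct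

namespace Fermat.Agent.S25.H190

open Fermat.Agent.S25 Fermat.Agent.S25.H10 Fermat.Agent.S25.H11

variable {k : Type u} [Field k]
  {B₀ B₁ B₀₁ : Type u} [CommRing B₀] [CommRing B₁] [CommRing B₀₁]
  [Algebra k B₀] [Algebra k B₁] [Algebra k B₀₁] [Algebra B₀ B₀₁] [Algebra B₁ B₀₁]
  [IsScalarTower k B₀ B₀₁] [IsScalarTower k B₁ B₀₁]
  {x : B₀} {y : B₁} {e : B₁ →ₐ[k] k}

section Dict

variable {A : Type u} [CommRing A] [Algebra k A]

/-- helper11's twisted differential is the operator-style twisted differential. -/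
theorem tcech_eq_d (hC : IsCurveChart k B₀ B₁ B₀₁ x y e) (n : ℕ) (G : CurveGD k B₀ B₁ B₀₁ A) :
    tcech x n G = (H250.chartCechOps hC G).d n := by
  haveI := hC.away₀
  haveI := hC.away₁
  apply LinearMap.ext
  rintro ⟨a, b⟩
  rw [tcech_apply, CechOps.d_apply]
  show G.r₀ a - xElt k B₀₁ A x ^ n • G.r₁ b =
    G.r₀ a - ((H250.toCechOps x y hC.mul_eq_one G).T ^ n) (G.r₁ b)
  rw [H250.toCechOps_T_pow_apply]
  rfl

/-- helper11's twisted differential is the Čech differential of helper10's twist `G(n)`. -/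
theorem tcech_eq_twistE_cech (hC : IsCurveChart k B₀ B₁ B₀₁ x y e) (n : ℕ)
    (G : CurveGD k B₀ B₁ B₀₁ A) :
    tcech x n G = (twistE x y hC.mul_eq_one G (n : ℤ)).cech := by
  rw [tcech_eq_d hC n G, H250.chartCechOps_twistE_cech hC G n]

/-- `sec x n G = Ȟ⁰(G(n))`. -/
theorem sec_eq_twistE_H0 (hC : IsCurveChart k B₀ B₁ B₀₁ x y e) (n : ℕ)
    (G : CurveGD k B₀ B₁ B₀₁ A) :
    sec x n G = (twistE x y hC.mul_eq_one G (n : ℤ)).H0 :=
  congrArg LinearMap.ker (tcech_eq_twistE_cech hC n G)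

/-- `sec x n G = Ȟ⁰` of the operator-style datum, twisted `n` times. -/
theorem sec_eq_H0 (hC : IsCurveChart k B₀ B₁ B₀₁ x y e) (n : ℕ) (G : CurveGD k B₀ B₁ B₀₁ A) :
    sec x n G = (H250.chartCechOps hC G).H0 n :=
  congrArg LinearMap.ker (tcech_eq_d hC n G)

/-- DEG3 over an arbitrary base ring: large twists kill `Ȟ¹`. -/
theorem exists_P0_ring (hC : IsCurveChart k B₀ B₁ B₀₁ x y e) (G : CurveGD k B₀ B₁ B₀₁ A) :
    ∃ n₀ : ℕ, ∀ n, n₀ ≤ n → P0 x n G := by
  obtain ⟨n₀, h⟩ := H250.exists_forall_twistE_cech_surjective hC G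
  refine ⟨n₀, fun n hn => ?_⟩
  have h1 := h n hn
  rw [← tcech_eq_twistE_cech hC n G] at h1
  exact h1

end Dict

section Degree

variable [IsAlgClosed k] {K : Type u} [Field K] [Algebra k K]

/-- DEG3 (twisting kills `H¹`). -/
theorem exists_P0 (hC : IsCurveChart k B₀ B₁ B₀₁ x y e) (G : CurveGD k B₀ B₁ B₀₁ K) :
    ∃ n₀ : ℕ, ∀ n, n₀ ≤ n → P0 x n G :=
  exists_P0_ring hC G

end Degree

end Fermat.Agent.S25.H190
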