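/-
S25, block DEGREE, leaf D1 (helper190): finiteness of Čech cohomology of a gluing datum on a
curve chart, EXACT statements of `H10/DegreeSkel.lean` (`finite_H1`, `finite_H0`).

* `finite_H1` : `Ȟ¹(G)` is a finite `A`-module, for every `k`-algebra `A` (E1/K2a + adapter);
* `finite_H0` : `Ȟ⁰(G)` is finite-dimensional over a field (K1a + adapter).

Everything is a transfer of the operator-style statements (`H790.H1_finite`,
`H850.exists_fg_ge_H0`) along the adapter `H250.chartCechOps`.
-/
import Fermat.Agent.S25.H250.AdapterProj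
import Fermat.Agent.S25.H790.CechK2
import Fermat.Agent.S25.H850.K1a
import Fermat.Agent.S25.H10.K0

set_option autoImplicit false

universe u

open scoped TensorProduct

namespace Fermat.Agent.S25.H190

open Fermat.Agent.S25 Fermat.Agent.S25.H10

variable {k : Type u} [Field k] {B₀ B₁ B₀₁ : Type u} [CommRing B₀] [CommRing B₁] [CommRing B₀₁]
  [Algebra k B₀] [Algebra k B₁] [Algebra k B₀₁] [Algebra B₀ B₀₁] [Algebra B₁ B₀₁]
  [IsScalarTower k B₀ B₀₁] [IsScalarTower k B₁ B₀₁]
  {x : B₀} {y : B₁} {e : B₁ →ₐ[k] k}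

/-- D1-a. `Ȟ¹` is a finite module over any base ring (E1 + adapter). -/
theorem finite_H1 (hC : IsCurveChart k B₀ B₁ B₀₁ x y e) {A : Type u} [CommRing A]
    [Algebra k A] (G : CurveGD k B₀ B₁ B₀₁ A) : Module.Finite A G.H1 := by
  have h := H790.H1_finite (H250.chartCechOps hC G)
    (isFG_of_isFGProj (H250.isFGProj_X0 hC G)) 0
  have hd : (H250.chartCechOps hC G).d 0 = G.cech := H250.chartCechOps_d_zero hC G
  have h' : Module.Finite A (G.N₀₁ ⧸ LinearMap.range ((H250.chartCechOps hC G).d 0)) := h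
  rw [hd] at h'
  exact h'

/-- D1-a'. `Ȟ⁰` is contained in a finitely generated submodule, over any base ring. -/
theorem exists_fg_ge_H0_curve (hC : IsCurveChart k B₀ B₁ B₀₁ x y e) {A : Type u} [CommRing A]
    [Algebra k A] (G : CurveGD k B₀ B₁ B₀₁ A) :
    ∃ M : Submodule A (G.N₀ × G.N₁), M.FG ∧ G.H0 ≤ M := by
  obtain ⟨M, hM, hle⟩ := H850.exists_fg_ge_H0 (H250.chartCechOps hC G)
    (H250.isFGProj_X0 hC G) (H250.isFGProj_Y1 hC G) (H250.r0_injective hC G)
    (H250.r1_injective hC G) 0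
  refine ⟨M, hM, ?_⟩
  have h0 : (H250.chartCechOps hC G).H0 0 = G.H0 := H250.chartCechOps_H0_zero hC G
  rw [← h0]
  exact hle

/-- D1-b. `Ȟ⁰` is finite-dimensional over a field (K1a + adapter). -/
theorem finite_H0 (hC : IsCurveChart k B₀ B₁ B₀₁ x y e) {K : Type u} [Field K]
    [Algebra k K] (G : CurveGD k B₀ B₁ B₀₁ K) : Module.Finite K G.H0 := by
  obtain ⟨M, hM, hle⟩ := exists_fg_ge_H0_curve hC G
  haveI : Module.Finite K M := Module.Finite.iff_fg.2 hM
  exact Module.Finite.of_injective (Submodule.inclusion hle) (Submodule.inclusion_injective hle)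

end Fermat.Agent.S25.H190
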