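/-
S25, blocks DEGREE (D4) and ALGCHARTS (DEG1), helper190.

* `euler_tcech_succ` / `euler_tcech` : `χ(G(n)) = χ(G) + n d`, in helper11's `tcech`-language;
* `euler_twistE_nat`, `euler_twistE`, `degree_twistE`, `chartDeg_pos` : D4 (helper10's
  `DegreeSkel.lean`, exact statements);
* `finrank_unit_H1` : `h¹(O_K) = g` (D6-b);
* `finrank_sec` : DEG1, exact statement of helper11's ALGCHARTS skeleton.

Method: the modification `G(n) → G(n+1)` is `(a, b) ↦ (a, y b)` on Čech cochains; its cokernel is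
`N₁ / y N₁`, which is free of rank one over the artinian ring `(K ⊗ B₁)/(y)` (the Picard group of
a semilocal ring is trivial), of `K`-dimension `d = dim_k B₁/(y)`; Euler characteristics by the
five-term sequence `H10.finrank_ker_add_finrank_coker`.
-/
import Fermat.Agent.S25.H190.D1
import Fermat.Agent.S25.H190.ACDeg3
import Fermat.Agent.S25.H10.RRLite
import Fermat.Agent.S25.H565.RankOne
import Fermat.Agent.S25.H671.UnitH0
import Fermat.Agent.S25.H310.DegreeInvariance
import Fermat.Agent.S25.H130.GDC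

set_option autoImplicit false
set_option linter.style.haveILetI false
set_option linter.unusedSectionVars false
set_option linter.unusedVariables false

universe u

open scoped TensorProduct

namespace Fermat.Agent.S25.H190

open Fermat.Agent.S25 Fermat.Agent.S25.H10 Fermat.Agent.S25.H11

/-! ## Invertible modules modulo an ideal with artinian quotient -/

section Invertible

/-- An invertible module modulo an ideal with semilocal quotient ring is isomorphic to the
quotient ring. -/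
theorem nonempty_quot_smul_equiv {R N : Type u} [CommRing R]
    [AddCommGroup N] [Module R N] [Module.Invertible R N]
    (I : Ideal R) [Finite (MaximalSpectrum (R ⧸ I))] :
    Nonempty ((N ⧸ (I • ⊤ : Submodule R N)) ≃ₗ[R] (R ⧸ I)) := by
  have hfree : Module.Free (R ⧸ I) ((R ⧸ I) ⊗[R] N) := inferInstance
  obtain ⟨e⟩ := (Module.Invertible.free_iff_linearEquiv (R := R ⧸ I)
    (M := (R ⧸ I) ⊗[R] N)).mp hfree
  exact ⟨(TensorProduct.quotTensorEquivQuotSMul N I).symm ≪≫ₗ e.restrictScalars R⟩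

/-- `dim_K N / I N = dim_K R / I` for an invertible `R`-module `N`, when `R / I` is
finite-dimensional over the field `K`. -/
theorem finrank_quot_smul_of_invertible {K R N : Type u} [Field K] [CommRing R] [Algebra K R]
    [AddCommGroup N] [Module R N] [Module K N] [IsScalarTower K R N] [Module.Invertible R N]
    (I : Ideal R) [Module.Finite K (R ⧸ I)] :
    Module.Finite K (N ⧸ (I • ⊤ : Submodule R N)) ∧
      Module.finrank K (N ⧸ (I • ⊤ : Submodule R N)) = Module.finrank K (R ⧸ I) := by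
  haveI : IsArtinianRing (R ⧸ I) := IsArtinianRing.of_finite K (R ⧸ I)
  obtain ⟨e⟩ := nonempty_quot_smul_equiv (N := N) I
  let eK : (N ⧸ (I • ⊤ : Submodule R N)) ≃ₗ[K] (R ⧸ I) := e.restrictScalars K
  exact ⟨Module.Finite.equiv eK.symm, eK.finrank_eq⟩

/-- `dim_K (K ⊗ B)/(1 ⊗ y) = dim_k B/(y)`. -/
theorem finrank_tensor_quot_span_singleton (k K B : Type u) [Field k] [Field K] [Algebra k K]
    [CommRing B] [Algebra k B] (y : B) [Module.Finite k (B ⧸ Ideal.span {y})] :
    Module.Finite K ((K ⊗[k] B) ⧸ Ideal.span {(1 : K) ⊗ₜ[k] y}) ∧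
      Module.finrank K ((K ⊗[k] B) ⧸ Ideal.span {(1 : K) ⊗ₜ[k] y}) =
        Module.finrank k (B ⧸ Ideal.span {y}) := by
  have hI : (Ideal.span {y}).map
      (Algebra.TensorProduct.includeRight (R := k) (A := K) (B := B)) =
      Ideal.span {(1 : K) ⊗ₜ[k] y} := by
    rw [Ideal.map_span, Set.image_singleton]
    rfl
  let E := Algebra.TensorProduct.tensorQuotientEquiv (R := k) K B K (Ideal.span {y})
  rw [← hI]
  refine ⟨Module.Finite.equiv E.toLinearEquiv, ?_⟩
  rw [← E.toLinearEquiv.finrank_eq, Module.finrank_baseChange]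

end Invertible

/-! ## The modification `G(n) → G(n+1)` in operator language -/

section Ops

variable {A : Type u} [CommRing A] {N0 N1 N01 : Type u} [AddCommGroup N0] [AddCommGroup N1]
  [AddCommGroup N01] [Module A N0] [Module A N1] [Module A N01]

/-- The inclusion of cochains `(a, b) ↦ (a, Y₁ b)` of `L(m)` into `L(m+1)`. -/
def twMap (D : CechOps A N0 N1 N01) : (N0 × N1) →ₗ[A] (N0 × N1) :=
  LinearMap.prodMap LinearMap.id D.Y1

@[simp] theorem twMap_apply (D : CechOps A N0 N1 N01) (p : N0 × N1) :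
    twMap D p = (p.1, D.Y1 p.2) := rfl

theorem d_succ_comp_twMap (D : CechOps A N0 N1 N01) (m : ℕ) :
    D.d (m + 1) ∘ₗ twMap D = D.d m := by
  apply LinearMap.ext
  rintro ⟨a, b⟩
  simp only [LinearMap.comp_apply, twMap_apply, CechOps.d_apply]
  rw [D.r1_Y1, pow_succ, Module.End.mul_apply, D.T_Tinv_apply]

theorem twMap_injective (D : CechOps A N0 N1 N01) (h : Function.Injective D.Y1) :
    Function.Injective (twMap D) := by
  rintro ⟨a, b⟩ ⟨a', b'⟩ hp
  simp only [twMap_apply, Prod.mk.injEq] at hp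
  exact Prod.ext hp.1 (h hp.2)

theorem range_twMap (D : CechOps A N0 N1 N01) :
    LinearMap.range (twMap D) =
      (LinearMap.range D.Y1).comap (LinearMap.snd A N0 N1) := by
  ext ⟨a, b⟩
  simp only [LinearMap.mem_range, twMap_apply, Prod.mk.injEq, Submodule.mem_comap,
    LinearMap.snd_apply, Prod.exists]
  constructor
  · rintro ⟨_, b', -, hb⟩
    exact ⟨b', hb⟩
  · rintro ⟨b', hb⟩
    exact ⟨a, b', rfl, hb⟩

/-- `(N₀ × N₁) / range (twMap) ≃ N₁ / Y₁ N₁`. -/
noncomputable def quotTwMapEquiv (D : CechOps A N0 N1 N01) :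
    ((N0 × N1) ⧸ LinearMap.range (twMap D)) ≃ₗ[A] (N1 ⧸ LinearMap.range D.Y1) :=
  Submodule.quotEquivOfEq _ _ (by
    rw [range_twMap, LinearMap.ker_comp, Submodule.ker_mkQ]) ≪≫ₗ
  LinearMap.quotKerEquivOfSurjective
    ((LinearMap.range D.Y1).mkQ ∘ₗ LinearMap.snd A N0 N1)
    (fun q => by
      obtain ⟨b, rfl⟩ := Submodule.mkQ_surjective _ q
      exact ⟨(0, b), rfl⟩)

end Ops

/-! ## Euler characteristic of twists, operator language, over a field -/

section OpsField

variable {K : Type u} [Field K] {N0 N1 N01 : Type u} [AddCommGroup N0] [AddCommGroup N1]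
  [AddCommGroup N01] [Module K N0] [Module K N1] [Module K N01]

theorem finite_H0_ops (D : CechOps K N0 N1 N01) (h0 : IsFGProj D.X0) (h1 : IsFGProj D.Y1)
    (hr0 : Function.Injective D.r0) (hr1 : Function.Injective D.r1) (m : ℕ) :
    Module.Finite K (LinearMap.ker (D.d m)) := by
  obtain ⟨M, hM, hle⟩ := H850.exists_fg_ge_H0 D h0 h1 hr0 hr1 m
  haveI : Module.Finite K M := Module.Finite.iff_fg.2 hM
  exact Module.Finite.of_injective (Submodule.inclusion hle) (Submodule.inclusion_injective hle)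

theorem finite_H1_ops (D : CechOps K N0 N1 N01) (h0 : IsFGProj D.X0) (m : ℕ) :
    Module.Finite K (N01 ⧸ LinearMap.range (D.d m)) :=
  H790.H1_finite D (isFG_of_isFGProj h0) m

/-- One step: `h⁰(m+1) + h¹(m) = h⁰(m) + dim N₁/Y₁N₁ + h¹(m+1)`. -/
theorem finrank_step_ops (D : CechOps K N0 N1 N01) (h0 : IsFGProj D.X0) (h1 : IsFGProj D.Y1)
    (hr0 : Function.Injective D.r0) (hr1 : Function.Injective D.r1)
    [Module.Finite K (N1 ⧸ LinearMap.range D.Y1)] (m : ℕ) :
    Module.finrank K (LinearMap.ker (D.d (m + 1))) +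
        Module.finrank K (N01 ⧸ LinearMap.range (D.d m)) =
      Module.finrank K (LinearMap.ker (D.d m)) +
        Module.finrank K (N1 ⧸ LinearMap.range D.Y1) +
        Module.finrank K (N01 ⧸ LinearMap.range (D.d (m + 1))) := by
  haveI : Module.Finite K (LinearMap.ker (D.d (m + 1))) := finite_H0_ops D h0 h1 hr0 hr1 (m + 1)
  haveI : Module.Finite K ((N0 × N1) ⧸ LinearMap.range (twMap D)) :=
    Module.Finite.equiv (quotTwMapEquiv D).symm
  haveI : Module.Finite K (N01 ⧸ LinearMap.range (D.d (m + 1) ∘ₗ twMap D)) := by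
    rw [d_succ_comp_twMap]
    exact finite_H1_ops D h0 m
  have key := finrank_ker_add_finrank_coker (twMap D) (D.d (m + 1))
    (twMap_injective D (injective_of_isFGProj h1))
  rw [(quotTwMapEquiv D).finrank_eq] at key
  have e1 : Module.finrank K (N01 ⧸ LinearMap.range (D.d (m + 1) ∘ₗ twMap D)) =
      Module.finrank K (N01 ⧸ LinearMap.range (D.d m)) := by
    rw [d_succ_comp_twMap]
  have e2 : Module.finrank K (LinearMap.ker (D.d (m + 1) ∘ₗ twMap D)) =
      Module.finrank K (LinearMap.ker (D.d m)) := by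
    rw [d_succ_comp_twMap]
  rw [e1, e2] at key
  exact key

/-- `χ(m) = χ(0) + m · dim N₁/Y₁N₁`. -/
theorem euler_ops (D : CechOps K N0 N1 N01) (h0 : IsFGProj D.X0) (h1 : IsFGProj D.Y1)
    (hr0 : Function.Injective D.r0) (hr1 : Function.Injective D.r1)
    [Module.Finite K (N1 ⧸ LinearMap.range D.Y1)] (m : ℕ) :
    (Module.finrank K (LinearMap.ker (D.d m)) : ℤ) -
        (Module.finrank K (N01 ⧸ LinearMap.range (D.d m)) : ℤ) =
      (Module.finrank K (LinearMap.ker (D.d 0)) : ℤ) -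
        (Module.finrank K (N01 ⧸ LinearMap.range (D.d 0)) : ℤ) +
        m * (Module.finrank K (N1 ⧸ LinearMap.range D.Y1) : ℤ) := by
  induction m with
  | zero => simp
  | succ m ih =>
    have h := finrank_step_ops D h0 h1 hr0 hr1 m
    have h' : (Module.finrank K (LinearMap.ker (D.d (m + 1))) : ℤ) +
        (Module.finrank K (N01 ⧸ LinearMap.range (D.d m)) : ℤ) =
      (Module.finrank K (LinearMap.ker (D.d m)) : ℤ) +
        (Module.finrank K (N1 ⧸ LinearMap.range D.Y1) : ℤ) +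
        (Module.finrank K (N01 ⧸ LinearMap.range (D.d (m + 1))) : ℤ) := by
      exact_mod_cast h
    push_cast
    linarith

end OpsField

/-! ## Curve charts -/

section Curve

variable {k : Type u} [Field k]
  {B₀ B₁ B₀₁ : Type u} [CommRing B₀] [CommRing B₁] [CommRing B₀₁]
  [Algebra k B₀] [Algebra k B₁] [Algebra k B₀₁] [Algebra B₀ B₀₁] [Algebra B₁ B₀₁]
  [IsScalarTower k B₀ B₀₁] [IsScalarTower k B₁ B₀₁]
  {x : B₀} {y : B₁} {e : B₁ →ₐ[k] k}

/-- `B₁ / (y)` is finite-dimensional over `k`. -/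
theorem finite_quot_y (hC : IsCurveChart k B₀ B₁ B₀₁ x y e) :
    Module.Finite k (B₁ ⧸ Ideal.span {y}) := by
  have h : FiniteDimensional k (B₁ ⧸ (Ideal.span {y}).restrictScalars k) :=
    H565.finiteDimensional_quotient_of_aeval_smul_mem (K := k) (R := B₁) y hC.finite₁
      (N := B₁) ((Ideal.span {y}).restrictScalars k) Polynomial.X Polynomial.X_ne_zero
      (fun n => by
        rw [Polynomial.aeval_X, Submodule.restrictScalars_mem, smul_eq_mul]
        exact Ideal.mul_mem_right _ _ (Ideal.subset_span rfl))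
  exact Module.Finite.equiv (Submodule.Quotient.restrictScalarsEquiv k (Ideal.span {y}))

/-- D4-c. `d > 0`. -/
theorem chartDeg_pos (hC : IsCurveChart k B₀ B₁ B₀₁ x y e) : 0 < chartDeg k y := by
  haveI := finite_quot_y hC
  haveI : Nontrivial (B₁ ⧸ Ideal.span {y}) := by
    refine Ideal.Quotient.nontrivial_iff.mpr ?_
    intro htop
    have h1 : (1 : B₁) ∈ Ideal.span {y} := by rw [htop]; trivial
    obtain ⟨c, hc⟩ := Ideal.mem_span_singleton'.mp h1
    have := congrArg e hc
    rw [map_mul, hC.e_y, mul_zero, map_one] at this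
    exact zero_ne_one this
  exact Module.finrank_pos

variable {K : Type u} [Field K] [Algebra k K]

theorem range_Y1_eq (hC : IsCurveChart k B₀ B₁ B₀₁ x y e) (G : CurveGD k B₀ B₁ B₀₁ K) :
    LinearMap.range (H250.chartCechOps hC G).Y1 =
      ((Ideal.span {yElt k K y} • ⊤ : Submodule (K ⊗[k] B₁) G.N₁)).restrictScalars K := by
  ext b
  rw [Submodule.restrictScalars_mem, Submodule.ideal_span_singleton_smul,
    Submodule.mem_smul_pointwise_iff_exists, LinearMap.mem_range]
  constructor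
  · rintro ⟨c, rfl⟩
    exact ⟨c, Submodule.mem_top, rfl⟩
  · rintro ⟨c, -, rfl⟩
    exact ⟨c, rfl⟩

/-- `dim_K N₁ / y N₁ = d`. -/
theorem finrank_quot_Y1 (hC : IsCurveChart k B₀ B₁ B₀₁ x y e) (G : CurveGD k B₀ B₁ B₀₁ K) :
    Module.Finite K (G.N₁ ⧸ LinearMap.range (H250.chartCechOps hC G).Y1) ∧
      Module.finrank K (G.N₁ ⧸ LinearMap.range (H250.chartCechOps hC G).Y1) =
        chartDeg k y := by
  haveI := finite_quot_y hC
  obtain ⟨hfin, hrk⟩ := finrank_tensor_quot_span_singleton k K B₁ y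
  haveI : Module.Finite K ((K ⊗[k] B₁) ⧸ Ideal.span {yElt k K y}) := hfin
  haveI := G.invertible₁
  obtain ⟨hf2, hr2⟩ := finrank_quot_smul_of_invertible (K := K) (R := K ⊗[k] B₁) (N := G.N₁)
    (Ideal.span {yElt k K y})
  let E : (G.N₁ ⧸ LinearMap.range (H250.chartCechOps hC G).Y1) ≃ₗ[K]
      (G.N₁ ⧸ (Ideal.span {yElt k K y} • ⊤ : Submodule (K ⊗[k] B₁) G.N₁)) :=
    Submodule.quotEquivOfEq _ _ (range_Y1_eq hC G) ≪≫ₗ
      Submodule.Quotient.restrictScalarsEquiv K _
  refine ⟨Module.Finite.equiv E.symm, ?_⟩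
  rw [E.finrank_eq, hr2]
  exact hrk

/-- `χ(G(n)) = χ(G) + n d` in `tcech`-language. -/
theorem euler_tcech (hC : IsCurveChart k B₀ B₁ B₀₁ x y e) (G : CurveGD k B₀ B₁ B₀₁ K)
    (n : ℕ) :
    (Module.finrank K (sec x n G) : ℤ) -
        (Module.finrank K (G.N₀₁ ⧸ LinearMap.range (tcech x n G)) : ℤ) =
      G.euler + n * (chartDeg k y : ℤ) := by
  obtain ⟨hfin, hrk⟩ := finrank_quot_Y1 hC G
  haveI := hfin
  have h := euler_ops (H250.chartCechOps hC G) (H250.isFGProj_X0 hC G) (H250.isFGProj_Y1 hC G)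
    (H250.r0_injective hC G) (H250.r1_injective hC G) n
  rw [hrk, H250.chartCechOps_d_zero hC G, ← tcech_eq_d hC n G] at h
  exact h

/-- `Ȟ⁰(G(n))` is finite-dimensional. -/
theorem finite_sec (hC : IsCurveChart k B₀ B₁ B₀₁ x y e) (G : CurveGD k B₀ B₁ B₀₁ K) (n : ℕ) :
    Module.Finite K (sec x n G) := by
  have h := finite_H0_ops (H250.chartCechOps hC G) (H250.isFGProj_X0 hC G)
    (H250.isFGProj_Y1 hC G) (H250.r0_injective hC G) (H250.r1_injective hC G) n
  rw [← tcech_eq_d hC n G] at h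
  exact h

/-- D4-a for natural twists. -/
theorem euler_twistE_nat (hC : IsCurveChart k B₀ B₁ B₀₁ x y e) (G : CurveGD k B₀ B₁ B₀₁ K)
    (n : ℕ) :
    (twistE x y hC.mul_eq_one G (n : ℤ)).euler = G.euler + n * (chartDeg k y : ℤ) := by
  have h := euler_tcech hC G n
  rw [tcech_eq_twistE_cech hC n G] at h
  exact h

/-- D4-a. `χ(G(n)) = χ(G) + n d`. -/
theorem euler_twistE (hC : IsCurveChart k B₀ B₁ B₀₁ x y e) (G : CurveGD k B₀ B₁ B₀₁ K)
    (n : ℤ) :
    (twistE x y hC.mul_eq_one G n).euler = G.euler + n * chartDeg k y := by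
  obtain ⟨m, rfl | rfl⟩ := Int.eq_nat_or_neg n
  · exact euler_twistE_nat hC G m
  · have h := euler_twistE_nat hC (twistE x y hC.mul_eq_one G (-(m : ℤ))) m
    have h1 := H130.euler_eq_of_isIso (H130.gdTwist_mul G (xUnit x y hC.mul_eq_one K ^ (-(m : ℤ)))
      (xUnit x y hC.mul_eq_one K ^ (m : ℤ)))
    rw [← zpow_add, neg_add_cancel, zpow_zero] at h1
    have h3 := H130.euler_eq_of_isIso (H130.gdTwist_one G)
    have h2 : (twistE x y hC.mul_eq_one (twistE x y hC.mul_eq_one G (-(m : ℤ))) (m : ℤ)).euler =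
        G.euler := h1.trans h3
    rw [h2] at h
    linarith

/-- D4-b. `deg G(n) = deg G + n d`. -/
theorem degree_twistE (hC : IsCurveChart k B₀ B₁ B₀₁ x y e) (G : CurveGD k B₀ B₁ B₀₁ K)
    (n : ℤ) :
    (twistE x y hC.mul_eq_one G n).degree = G.degree + n * chartDeg k y := by
  have h := euler_twistE hC G n
  unfold GlueDatum.degree
  rw [h]
  ring

/-- D6-b. `h¹(unit over K) = g`. -/
theorem finrank_H1_unit (hC : IsCurveChart k B₀ B₁ B₀₁ x y e)
    (K : Type u) [Field K] [Algebra k K] :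
    Module.finrank K (GlueDatum.unit K (K ⊗[k] B₀) (K ⊗[k] B₁) (K ⊗[k] B₀₁)).H1 =
      genus k B₀ B₁ B₀₁ :=
  (H310.unitBCMaps (k := k) (A := k) (A' := K) (B₀ := B₀) (B₁ := B₁)
    (B₀₁ := B₀₁)).finrank_H1_eq

/-! ### With `k` algebraically closed: Riemann–Roch bookkeeping -/

section AlgClosed

variable [IsAlgClosed k]

/-- D6-a. `Ȟ⁰(unit) = K`. -/
theorem finrank_H0_unit (hC : IsCurveChart k B₀ B₁ B₀₁ x y e)
    (K : Type u) [Field K] [Algebra k K] :
    Module.finrank K (GlueDatum.unit K (K ⊗[k] B₀) (K ⊗[k] B₁) (K ⊗[k] B₀₁)).H0 = 1 :=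
  H671.finrank_unit_H0 hC K

/-- D6-c. `χ(G) = deg G + 1 - g`. -/
theorem euler_eq_degree (hC : IsCurveChart k B₀ B₁ B₀₁ x y e)
    {K : Type u} [Field K] [Algebra k K] (G : CurveGD k B₀ B₁ B₀₁ K) :
    G.euler = G.degree + 1 - genus k B₀ B₁ B₀₁ := by
  have h := H671.euler_unit hC K
  rw [finrank_H1_unit hC K] at h
  unfold GlueDatum.degree
  rw [h]
  ring

/-- D6-d. Riemann inequality. -/
theorem riemann_inequality (hC : IsCurveChart k B₀ B₁ B₀₁ x y e)
    {K : Type u} [Field K] [Algebra k K] (G : CurveGD k B₀ B₁ B₀₁ K) :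
    G.degree + 1 - genus k B₀ B₁ B₀₁ ≤ Module.finrank K G.H0 := by
  have h := euler_eq_degree hC G
  unfold GlueDatum.euler at h
  have h1 : (0 : ℤ) ≤ (Module.finrank K G.H1 : ℤ) := Int.natCast_nonneg _
  linarith

/-- DEG1 (`χ(G(nE₀)) = χ(G) + n d`, `χ(O_K) = 1 - g`): if `deg G = 0` and `H¹(G(nE₀)) = 0` then
`dim H⁰(G(nE₀)) = n d + 1 - g`. -/
theorem finrank_sec (hC : IsCurveChart k B₀ B₁ B₀₁ x y e) (G : CurveGD k B₀ B₁ B₀₁ K)
    (hdeg : G.degree = 0) (n : ℕ) (h0 : P0 x n G) :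
    Module.Finite K (sec x n G) ∧
      Module.finrank K (sec x n G) +
          Module.finrank k (GlueDatum.unit k (k ⊗[k] B₀) (k ⊗[k] B₁) (k ⊗[k] B₀₁)).H1 =
        n * Module.finrank k (B₁ ⧸ Ideal.span {y}) + 1 := by
  refine ⟨finite_sec hC G n, ?_⟩
  have h := euler_tcech hC G n
  have hE := euler_eq_degree hC G
  rw [hdeg] at hE
  have hH1 : Module.finrank K (G.N₀₁ ⧸ LinearMap.range (tcech x n G)) = 0 := by
    have htop : LinearMap.range (tcech x n G) = ⊤ := LinearMap.range_eq_top.mpr h0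
    rw [htop]
    exact Module.finrank_zero_of_subsingleton
  rw [hH1, hE] at h
  have hg : (genus k B₀ B₁ B₀₁ : ℤ) =
      (Module.finrank k (GlueDatum.unit k (k ⊗[k] B₀) (k ⊗[k] B₁) (k ⊗[k] B₀₁)).H1 : ℤ) := rfl
  have hd : (chartDeg k y : ℤ) = (Module.finrank k (B₁ ⧸ Ideal.span {y}) : ℤ) := rfl
  rw [hg, hd] at h
  simp only [Nat.cast_zero, sub_zero, zero_add] at h
  have key : ((Module.finrank K (sec x n G) +
      Module.finrank k (GlueDatum.unit k (k ⊗[k] B₀) (k ⊗[k] B₁) (k ⊗[k] B₀₁)).H1 : ℕ) : ℤ) =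
      ((n * Module.finrank k (B₁ ⧸ Ideal.span {y}) + 1 : ℕ) : ℤ) := by
    push_cast
    linarith
  exact_mod_cast key

end AlgClosed

end Curve

end Fermat.Agent.S25.H190
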